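/-
GATE-L / L6 KUMMER-MOVE (helper46).

For a divisor of Kummer type `D = (1/m) div u` (`u : F`, `F = Frac B`), the module
`L(D) = {f | f ^ m * u ∈ B}` is intrinsic, and MOVE + CLEARING (board 2695 (5), (F3)) need only
that `B` is `m`-ROOT-CLOSED in `F` (`y ^ m ∈ B → y ∈ B`; true for an intersection of valuation
rings, or for an integrally closed domain) plus the local input

  (LOC_P)  `∃ g a s, a ∉ P, s ∉ P, g ^ m * u * s = a`   ("`u` is a unit times an `m`-th power at `P`").

No noetherian hypothesis, no finite character, no approximation, no divisorial modules.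

* `RootClosed B F m`, `rootClosed_of_isIntegrallyClosed`, `rootClosed_of_valuationSubrings`;
* `kummerModule hrc hm u : Submodule B F` (`= L(D)`), `mem_kummerModule`;
* `isGenAt_of_pow_mul_eq` : `g ^ m * u = c`, `c ∉ P` ⟹ `g` generates `L(D)` at `P`
  (in the sense of `SemilocalGen.IsGenAt`);
* `clear_of_pow_mul_eq` : `g ^ m * u = c ∈ B`, `x ^ m * (g ^ m * u) ∈ B` ⟹ `c * x ∈ B`;
* `kummer_move` : finitely many distinct maximal ideals `P i` with (LOC) ⟹ ONE `g ≠ 0` and
  `c : B` with `g ^ m * u = c`, `c ∉ P i` for all `i`, and `c * x ∈ B` for every `x` with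
  `x ^ m * (g ^ m * u) ∈ B`.
-/
import Mathlib
import Fermat.Agent.GL.Local.SemilocalGen

set_option autoImplicit false
set_option linter.unusedSectionVars false
set_option linter.unusedVariables false

namespace Fermat.Agent.GL.KummerMove

open Fermat.Agent.GL

variable {B F : Type*} [CommRing B] [IsDomain B] [Field F] [Algebra B F] [IsFractionRing B F]

/-- `B` is `m`-root-closed in `F`. -/
def RootClosed (B F : Type*) [CommRing B] [Field F] [Algebra B F] (m : ℕ) : Prop :=
  ∀ y : F, y ^ m ∈ (algebraMap B F).range → y ∈ (algebraMap B F).range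

theorem rootClosed_of_isIntegrallyClosed [IsIntegrallyClosed B] {m : ℕ} (hm : m ≠ 0) :
    RootClosed B F m := by
  intro y hy
  obtain ⟨b, hb⟩ := hy
  have hint : IsIntegral B y := by
    refine ⟨Polynomial.X ^ m - Polynomial.C b, Polynomial.monic_X_pow_sub_C b hm, ?_⟩
    simp [hb]
  obtain ⟨a, ha⟩ := IsIntegrallyClosed.isIntegral_iff.mp hint
  exact ⟨a, ha⟩

theorem rootClosed_of_valuationSubrings {ι : Type*} (V : ι → ValuationSubring F)
    (hBV : ∀ f : F, f ∈ (algebraMap B F).range ↔ ∀ i, f ∈ V i) {m : ℕ} (hm : m ≠ 0) :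
    RootClosed B F m := by
  intro y hy
  rw [hBV] at hy ⊢
  intro i
  rcases (V i).mem_or_inv_mem y with h | h
  · exact h
  · -- `y⁻¹ ∈ V i` and `y ^ m ∈ V i`, so `y = y ^ m * (y⁻¹) ^ (m - 1) ∈ V i`
    by_cases hy0 : y = 0
    · rw [hy0]; exact (V i).zero_mem
    have : y = y ^ m * (y⁻¹) ^ (m - 1) := by
      obtain ⟨k, rfl⟩ := Nat.exists_eq_succ_of_ne_zero hm
      simp only [Nat.succ_sub_one, pow_succ, inv_pow]
      field_simp
    rw [this]
    exact (V i).mul_mem _ _ (hy i) ((V i).pow_mem h _)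

section Module

variable {m : ℕ} (hrc : RootClosed B F m) (hm : m ≠ 0) (u : F)

/-- `L(D)` for `D = (1/m) div u`: the `f` with `f ^ m * u ∈ B`. -/
def kummerModule : Submodule B F where
  carrier := {f | f ^ m * u ∈ (algebraMap B F).range}
  zero_mem' := by
    show (0 : F) ^ m * u ∈ (algebraMap B F).range
    rw [zero_pow hm, zero_mul]; exact ⟨0, map_zero _⟩
  add_mem' := by
    intro f g hf hg
    show (f + g) ^ m * u ∈ (algebraMap B F).range
    rw [add_pow, Finset.sum_mul]
    refine Subring.sum_mem _ (fun i hi => ?_)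
    have hi' : i ≤ m := Nat.lt_succ_iff.mp (Finset.mem_range.mp hi)
    -- each term is in `B` by root-closedness
    have hterm : f ^ i * g ^ (m - i) * u ∈ (algebraMap B F).range := by
      apply hrc
      have : (f ^ i * g ^ (m - i) * u) ^ m = (f ^ m * u) ^ i * (g ^ m * u) ^ (m - i) := by
        have h1 : i + (m - i) = m := Nat.add_sub_cancel' hi'
        calc (f ^ i * g ^ (m - i) * u) ^ m
            = (f ^ m) ^ i * (g ^ m) ^ (m - i) * u ^ m := by
              rw [mul_pow, mul_pow, ← pow_mul, ← pow_mul, ← pow_mul, ← pow_mul,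
                mul_comm i m, mul_comm (m - i) m]
          _ = (f ^ m) ^ i * (g ^ m) ^ (m - i) * (u ^ i * u ^ (m - i)) := by
              rw [← pow_add, h1]
          _ = (f ^ m * u) ^ i * (g ^ m * u) ^ (m - i) := by
              rw [mul_pow, mul_pow]; ring
      rw [this]
      exact Subring.mul_mem _ (Subring.pow_mem _ hf _) (Subring.pow_mem _ hg _)
    have : f ^ i * g ^ (m - i) * (m.choose i : F) * u
        = algebraMap B F (m.choose i : B) * (f ^ i * g ^ (m - i) * u) := by
      rw [map_natCast]; ring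
    rw [this]
    exact Subring.mul_mem _ ⟨_, rfl⟩ hterm
  smul_mem' := by
    intro c f hf
    show (c • f) ^ m * u ∈ (algebraMap B F).range
    rw [Algebra.smul_def, mul_pow, mul_assoc, ← map_pow]
    exact Subring.mul_mem _ ⟨_, rfl⟩ hf

theorem mem_kummerModule {f : F} :
    f ∈ kummerModule hrc hm u ↔ f ^ m * u ∈ (algebraMap B F).range := Iff.rfl

/-- fraction-free local generation: if `g ^ m * u = c` with `c ∉ P` then `g` generates `L(D)`
at `P`. -/
theorem isGenAt_of_pow_mul_eq {P : Ideal B} {g : F} {c : B}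
    (hgc : g ^ m * u = algebraMap B F c) (hc : c ∉ P) :
    SemilocalGen.IsGenAt (kummerModule hrc hm u) P g := by
  have hc0 : algebraMap B F c ≠ 0 := by
    intro h
    have : c = 0 := (map_eq_zero_iff _ (IsFractionRing.injective B F)).mp h
    exact hc (this ▸ P.zero_mem)
  have hg0 : g ≠ 0 := by
    rintro rfl
    rw [zero_pow hm, zero_mul] at hgc
    exact hc0 hgc.symm
  refine ⟨⟨c, hgc.symm⟩, fun x hx => ?_⟩
  obtain ⟨d, hd⟩ := hx
  -- `y := c x / g` has `y ^ m = c ^ (m-1) d ∈ B`
  have hy : (algebraMap B F c * x / g) ^ m ∈ (algebraMap B F).range := by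
    refine ⟨c ^ (m - 1) * d, ?_⟩
    obtain ⟨k, rfl⟩ := Nat.exists_eq_succ_of_ne_zero hm
    simp only [Nat.succ_sub_one]
    rw [map_mul, map_pow, hd, div_pow, mul_pow]
    have hgm : g ^ (k + 1) ≠ 0 := pow_ne_zero _ hg0
    rw [eq_div_iff hgm]
    have hu : algebraMap B F c = g ^ (k + 1) * u := hgc.symm
    calc (algebraMap B F c) ^ k * (x ^ (k + 1) * u) * g ^ (k + 1)
        = (algebraMap B F c) ^ k * (g ^ (k + 1) * u) * x ^ (k + 1) := by ring
      _ = (algebraMap B F c) ^ (k + 1) * x ^ (k + 1) := by rw [← hu]; ring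
  obtain ⟨b, hb⟩ := hrc _ hy
  refine ⟨c, hc, b, ?_⟩
  rw [Algebra.smul_def, Algebra.smul_def, hb]
  field_simp

/-- CLEARING: if `g ^ m * u = c ∈ B` and `x ^ m * (g ^ m * u) ∈ B` then `c * x ∈ B`. -/
theorem clear_of_pow_mul_eq {m : ℕ} (hrc : RootClosed B F m) (hm : m ≠ 0) {c : B} {u2 x : F}
    (hu2 : u2 = algebraMap B F c) (hx : x ^ m * u2 ∈ (algebraMap B F).range) :
    algebraMap B F c * x ∈ (algebraMap B F).range := by
  apply hrc
  obtain ⟨d, hd⟩ := hx
  refine ⟨c ^ (m - 1) * d, ?_⟩
  rw [map_mul, map_pow, hd, hu2, mul_pow, ← pow_sub_one_mul hm (algebraMap B F c)]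
  ring

end Module

/-- **KUMMER MOVE.** `B` `m`-root-closed domain, `P i` finitely many distinct maximal ideals,
`u ≠ 0` locally a unit times an `m`-th power at each `P i`.  Then there is ONE `g ≠ 0` with
`g ^ m * u = c ∈ B`, `c` outside every `P i`; moreover `c * x ∈ B` for every `x` with
`x ^ m * (g ^ m * u) ∈ B`. -/
theorem kummer_move {m : ℕ} (hrc : RootClosed B F m) (hm : m ≠ 0) {ι : Type*} [Finite ι]
    (P : ι → Ideal B) (hmax : ∀ i, (P i).IsMaximal) (hinj : Function.Injective P)
    (u : F) (hu : u ≠ 0)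
    (hloc : ∀ i, ∃ g : F, ∃ a s : B, a ∉ P i ∧ s ∉ P i ∧
      g ^ m * u * algebraMap B F s = algebraMap B F a) :
    ∃ g : F, g ≠ 0 ∧ ∃ c : B, g ^ m * u = algebraMap B F c ∧ (∀ i, c ∉ P i) ∧
      ∀ x : F, x ^ m * (g ^ m * u) ∈ (algebraMap B F).range →
        algebraMap B F c * x ∈ (algebraMap B F).range := by
  classical
  have := Fintype.ofFinite ι
  have hinjB : Function.Injective (algebraMap B F) := IsFractionRing.injective B F
  -- normalised local generators `g' i` with `g' i ^ m * u = c' i ∉ P i`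
  have hloc' : ∀ i, ∃ g : F, ∃ c : B, c ∉ P i ∧ g ^ m * u = algebraMap B F c := by
    intro i
    obtain ⟨g, a, s, ha, hs, h⟩ := hloc i
    have := (hmax i).isPrime
    refine ⟨algebraMap B F s * g, s ^ (m - 1) * a, ?_, ?_⟩
    · intro hmem
      rcases Ideal.IsPrime.mem_or_mem ‹_› hmem with h1 | h1
      · exact hs (Ideal.IsPrime.mem_of_pow_mem ‹_› _ h1)
      · exact ha h1
    · rw [map_mul, map_pow, ← h, mul_pow, ← pow_sub_one_mul hm (algebraMap B F s)]
      ring
  choose g' c' hc' hg' using hloc'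
  have hgen : ∀ i, ∃ g, SemilocalGen.IsGenAt (kummerModule hrc hm u) (P i) g := fun i =>
    ⟨g' i, isGenAt_of_pow_mul_eq hrc hm u (hg' i) (hc' i)⟩
  by_cases hι : Nonempty ι
  · obtain ⟨g, hg⟩ :=
      SemilocalGen.exists_simultaneous_generator (kummerModule hrc hm u) P hmax hinj hgen
    obtain ⟨i0⟩ := hι
    obtain ⟨c, hc⟩ := (hg i0).1
    -- `c ∉ P i`
    have hcP : ∀ i, c ∉ P i := by
      intro i hci
      have := (hmax i).isPrime
      obtain ⟨s1, hs1, b, hb⟩ := (hg i).2 (g' i) ⟨c' i, (hg' i).symm⟩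
      rw [Algebra.smul_def, Algebra.smul_def] at hb
      -- `s1^m c' i = b^m c`
      have hpow : s1 ^ m * c' i = b ^ m * c := by
        apply hinjB
        rw [map_mul, map_mul, map_pow, map_pow, ← hg' i, hc]
        calc (algebraMap B F s1) ^ m * (g' i ^ m * u)
            = (algebraMap B F s1 * g' i) ^ m * u := by rw [mul_pow]; ring
          _ = (algebraMap B F b * g) ^ m * u := by rw [hb]
          _ = (algebraMap B F b) ^ m * (g ^ m * u) := by rw [mul_pow]; ring
      have hmem : s1 ^ m * c' i ∈ P i := by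
        rw [hpow]; exact (P i).mul_mem_left _ hci
      rcases Ideal.IsPrime.mem_or_mem ‹_› hmem with h1 | h1
      · exact hs1 (Ideal.IsPrime.mem_of_pow_mem ‹_› _ h1)
      · exact hc' i h1
    have hg0 : g ≠ 0 := by
      rintro rfl
      rw [zero_pow hm, zero_mul] at hc
      have : c = 0 := hinjB (by rw [hc, map_zero])
      exact hcP i0 (this ▸ (P i0).zero_mem)
    refine ⟨g, hg0, c, hc.symm, hcP, fun x hx => ?_⟩
    exact clear_of_pow_mul_eq hrc hm hc.symm hx
  · -- no points: clear the denominator of `u`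
    obtain ⟨a, b, hb, hab⟩ := IsFractionRing.div_surjective (A := B) u
    have hb0 : algebraMap B F b ≠ 0 := by
      intro h
      have : b = 0 := hinjB (by rw [h, map_zero])
      exact (nonZeroDivisors.ne_zero hb) this
    have hgc : (algebraMap B F b) ^ m * u = algebraMap B F (b ^ (m - 1) * a) := by
      rw [map_mul, map_pow, ← hab, ← pow_sub_one_mul hm (algebraMap B F b)]
      field_simp
    refine ⟨algebraMap B F b, hb0, b ^ (m - 1) * a, hgc, fun i => absurd ⟨i⟩ hι, fun x hx => ?_⟩
    exact clear_of_pow_mul_eq hrc hm hgc hx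

end Fermat.Agent.GL.KummerMove
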