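import Fermat.Agent.GL.Move.SemilocalGen

/-!
# GATE-L / L6b (S2) (helper38): MOVE, abstract valuation form

On top of helper2's `GL/Move/SemilocalGen.lean` (`exists_common_generator`).

* `interRing V = ⋂ v ∈ V, v` for a set `V` of valuation subrings of a field `F`
  (in GATE-L: the horizontal places off the cusps together with the vertical `w_i`; the
  intersection is `B_R`).
* `divMod V a = {f | ∀ v ∈ V, f / a v ∈ v}`, a module over `interRing V`
  (in GATE-L: `I_R(D)`, with `ord_v (a v) = - D v`).
* `CentreLE V v P` : the centre of `v` on `interRing V` is contained in the ideal `P`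
  ("`v` passes through the closed point `P`"; holds for the horizontal places reducing to `P` and
  for the vertical `w_i` whose component contains `P`).  `centre V v hv` is the centre itself.
* `exists_move` : if `divMod V a` is locally principal at finitely many maximal ideals `P ∈ S` and
  has no base point at the `v ∈ V` through the `P ∈ S`, there is `g₀ ∈ divMod V a` with
  `v (g₀ / a v) = 1` for every `v ∈ V` through some `P ∈ S`.
* `move_pair` : the effect on a pair `(u, D)` with `div u = m D`.
* `exists_hloc_of_span_eq` : adapter producing the local-principality hypothesis from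
  "`span_O I` is generated by one element", `O` the localisation at `P`
  (the output shape of helper84's `DvrQuot.exists_eq_span_singleton`).
* `exists_smul_mem_divMod` : an element satisfying the conditions of `divMod V a` at all `v`
  through `P` lies in `divMod V a` up to a denominator `s ∉ P` (finitely many bad `v`, each of
  rank one): the localisation of `divMod V a` at `P` is cut out by the `v` through `P`.
-/

set_option autoImplicit false

namespace Fermat.Agent.GL.MoveAbs

open Fermat.Agent.GL.Move

section Adapter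

variable {B F : Type*} [CommRing B] [Field F] [Algebra B F]

/-- **Adapter from the localisation.**  If the `O`-span of `I` (`O` the localisation of `B` at the
prime `P`) is generated by one element, then `I` has a local generator at `P` lying in `I`, in the
shape consumed by `Move.exists_common_generator`. -/
theorem exists_hloc_of_span_eq {O : Type*} [CommRing O] [Algebra B O] [Algebra O F]
    [IsScalarTower B O F] (P : Ideal B) [P.IsPrime] [IsLocalization.AtPrime O P]
    (I : Submodule B F) {g : F}
    (hM : Submodule.span O (I : Set F) = Submodule.span O {g}) :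
    ∃ g' ∈ I, ∀ f ∈ I, ∃ s : B, s ∉ P ∧ ∃ b : B, s • f = b • g' := by
  classical
  have hgM : g ∈ Submodule.span O (I : Set F) := hM ▸ Submodule.mem_span_singleton_self g
  have h1P : (1 : B) ∉ P := fun h => (Ideal.IsPrime.ne_top ‹_›) ((Ideal.eq_top_iff_one P).mpr h)
  -- clear denominators: `s • x ∈ I` for some `s ∉ P`
  have hclear : ∀ x ∈ Submodule.span O (I : Set F), ∃ s : B, s ∉ P ∧ s • x ∈ I := by
    intro x hx
    induction hx using Submodule.span_induction with
    | mem x hx => exact ⟨1, h1P, by simpa using hx⟩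
    | zero => exact ⟨1, h1P, by simp⟩
    | add x y _ _ hx hy =>
      obtain ⟨s, hs, hsx⟩ := hx
      obtain ⟨t, ht, hty⟩ := hy
      refine ⟨s * t, fun h => ?_, ?_⟩
      · rcases Ideal.IsPrime.mem_or_mem ‹_› h with h | h
        · exact hs h
        · exact ht h
      · rw [smul_add, mul_smul, smul_comm s t x, mul_smul]
        exact I.add_mem (I.smul_mem t hsx) (I.smul_mem s hty)
    | smul c x _ hx =>
      obtain ⟨s, hs, hsx⟩ := hx
      obtain ⟨b, t, hbt⟩ := IsLocalization.exists_mk'_eq P.primeCompl c
      have ht : (t : B) ∉ P := t.2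
      refine ⟨t * s, fun h => ?_, ?_⟩
      · rcases Ideal.IsPrime.mem_or_mem ‹_› h with h | h
        · exact ht h
        · exact hs h
      · have h1 : (t : B) • c = algebraMap B O b := by
          rw [← hbt, Algebra.smul_def, mul_comm, IsLocalization.mk'_spec]
        have h2 : ((t : B) * s) • (c • x) = b • (s • x) := by
          rw [mul_smul, smul_comm s c x, ← smul_assoc, h1, algebraMap_smul]
        rw [h2]
        exact I.smul_mem b hsx
  obtain ⟨s₀, hs₀, hs₀g⟩ := hclear g hgM
  refine ⟨s₀ • g, hs₀g, fun f hf => ?_⟩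
  have hfM : f ∈ Submodule.span O {g} := hM ▸ Submodule.subset_span hf
  obtain ⟨c, rfl⟩ := Submodule.mem_span_singleton.mp hfM
  obtain ⟨b, t, hbt⟩ := IsLocalization.exists_mk'_eq P.primeCompl c
  have ht : (t : B) ∉ P := t.2
  have h1 : (t : B) • c = algebraMap B O b := by
    rw [← hbt, Algebra.smul_def, mul_comm, IsLocalization.mk'_spec]
  refine ⟨t * s₀, fun h => ?_, b, ?_⟩
  · rcases Ideal.IsPrime.mem_or_mem ‹_› h with h | h
    · exact ht h
    · exact hs₀ h
  · rw [mul_comm, mul_smul, ← smul_assoc (t : B) c g, h1, algebraMap_smul, smul_comm]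

end Adapter

section Valuation

variable {F : Type*} [Field F]

/-- the intersection of a set of valuation subrings, as a subring -/
def interRing (V : Set (ValuationSubring F)) : Subring F :=
  ⨅ v ∈ V, v.toSubring

theorem mem_interRing {V : Set (ValuationSubring F)} {x : F} :
    x ∈ interRing V ↔ ∀ v ∈ V, x ∈ v := by
  simp [interRing, Subring.mem_iInf]

theorem coe_mem_of_mem {V : Set (ValuationSubring F)} (x : interRing V) {v : ValuationSubring F}
    (hv : v ∈ V) : (x : F) ∈ v := mem_interRing.mp x.2 v hv

theorem valuation_coe_le_one {V : Set (ValuationSubring F)} (x : interRing V)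
    {v : ValuationSubring F} (hv : v ∈ V) : v.valuation (x : F) ≤ 1 :=
  (ValuationSubring.valuation_le_one_iff v _).mpr (coe_mem_of_mem x hv)

/-- `{f | ∀ v ∈ V, f / a v ∈ v}` as a module over `interRing V` -/
def divMod (V : Set (ValuationSubring F)) (a : ValuationSubring F → F) :
    Submodule (interRing V) F where
  carrier := {f | ∀ v ∈ V, f / a v ∈ v}
  zero_mem' := fun v _ => by simp [v.zero_mem]
  add_mem' := fun {x y} hx hy v hv => by
    rw [add_div]
    exact v.add_mem _ _ (hx v hv) (hy v hv)
  smul_mem' := fun c x hx v hv => by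
    rw [Subring.smul_def, smul_eq_mul, mul_div_assoc]
    exact v.mul_mem _ _ (coe_mem_of_mem c hv) (hx v hv)

theorem mem_divMod {V : Set (ValuationSubring F)} {a : ValuationSubring F → F} {f : F} :
    f ∈ divMod V a ↔ ∀ v ∈ V, f / a v ∈ v := Iff.rfl

/-- the centre of `v` on `interRing V` is contained in the ideal `P` -/
def CentreLE (V : Set (ValuationSubring F)) (v : ValuationSubring F) (P : Ideal (interRing V)) :
    Prop :=
  ∀ x : interRing V, v.valuation (x : F) < 1 → x ∈ P

/-- the centre of `v ∈ V` on `interRing V` -/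
def centre (V : Set (ValuationSubring F)) (v : ValuationSubring F) (hv : v ∈ V) :
    Ideal (interRing V) :=
  Ideal.comap (Subring.inclusion (fun _ hx => mem_interRing.mp hx v hv) :
    interRing V →+* v.toSubring) (IsLocalRing.maximalIdeal v)

theorem mem_centre {V : Set (ValuationSubring F)} {v : ValuationSubring F} (hv : v ∈ V)
    (x : interRing V) : x ∈ centre V v hv ↔ v.valuation (x : F) < 1 := by
  unfold centre
  rw [Ideal.mem_comap]
  exact ValuationSubring.valuation_lt_one_iff v _

instance centre_isPrime {V : Set (ValuationSubring F)} {v : ValuationSubring F} (hv : v ∈ V) :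
    (centre V v hv).IsPrime := by
  unfold centre
  exact Ideal.comap_isPrime _ _

theorem centreLE_iff {V : Set (ValuationSubring F)} {v : ValuationSubring F} (hv : v ∈ V)
    (P : Ideal (interRing V)) : CentreLE V v P ↔ centre V v hv ≤ P :=
  ⟨fun h x hx => h x ((mem_centre hv x).mp hx), fun h x hx => h ((mem_centre hv x).mpr hx)⟩

theorem centreLE_centre {V : Set (ValuationSubring F)} {v : ValuationSubring F} (hv : v ∈ V) :
    CentreLE V v (centre V v hv) := (centreLE_iff hv _).mpr le_rfl

/-- an element of `interRing V` outside `P` is a unit of every `v ∈ V` through `P` -/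
theorem valuation_eq_one_of_not_mem {V : Set (ValuationSubring F)} {v : ValuationSubring F}
    (hv : v ∈ V) {P : Ideal (interRing V)} (hc : CentreLE V v P) {s : interRing V}
    (hs : s ∉ P) : v.valuation (s : F) = 1 :=
  le_antisymm (valuation_coe_le_one s hv) (not_lt.mp fun h => hs (hc s h))

/-- **MOVE, abstract form.** -/
theorem exists_move (V : Set (ValuationSubring F)) (a : ValuationSubring F → F)
    (S : Finset (Ideal (interRing V))) (hmax : ∀ P ∈ S, P.IsMaximal)
    (hprin : ∀ P ∈ S, ∃ g ∈ divMod V a, ∀ f ∈ divMod V a,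
      ∃ s : interRing V, s ∉ P ∧ ∃ b : interRing V, s • f = b • g)
    (hexact : ∀ P ∈ S, ∀ v ∈ V, CentreLE V v P →
      ∃ h ∈ divMod V a, v.valuation (h / a v) = 1) :
    ∃ g₀ ∈ divMod V a, ∀ P ∈ S, ∀ v ∈ V, CentreLE V v P → v.valuation (g₀ / a v) = 1 := by
  obtain ⟨g₀, hg₀, hgen⟩ := exists_common_generator (divMod V a) S hmax hprin
  refine ⟨g₀, hg₀, fun P hP v hv hc => ?_⟩
  obtain ⟨h, hh, hh1⟩ := hexact P hP v hv hc
  obtain ⟨s, hs, b, hsb⟩ := hgen P hP h hh
  have hsv : v.valuation (s : F) = 1 := valuation_eq_one_of_not_mem hv hc hs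
  have hbv : v.valuation (b : F) ≤ 1 := valuation_coe_le_one b hv
  have hg₀v : v.valuation (g₀ / a v) ≤ 1 :=
    (ValuationSubring.valuation_le_one_iff v _).mpr (hg₀ v hv)
  rw [Subring.smul_def, Subring.smul_def, smul_eq_mul, smul_eq_mul] at hsb
  have hkey : v.valuation (h / a v) = v.valuation (b : F) * v.valuation (g₀ / a v) := by
    have : (s : F) * (h / a v) = (b : F) * (g₀ / a v) := by
      rw [← mul_div_assoc, hsb, mul_div_assoc]
    have h3 := congrArg v.valuation this
    rwa [map_mul, map_mul, hsv, one_mul] at h3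
  rw [hh1] at hkey
  refine le_antisymm hg₀v ?_
  calc (1 : _) = v.valuation (b : F) * v.valuation (g₀ / a v) := hkey
    _ ≤ 1 * v.valuation (g₀ / a v) := mul_le_mul' hbv le_rfl
    _ = v.valuation (g₀ / a v) := one_mul _

/-- **MOVE on the pair `(u, D)`.**  If `div u = m D` at every `v ∈ V` (multiplicatively:
`v (u * a v ^ m) = 1`) and `g₀` is as in `exists_move`, then `u' := u * g₀ ^ m` is a unit of every
`v ∈ V` through some `P ∈ S`, and `div u' = m D'` for the new bounds `a' v := a v / g₀`. -/
theorem move_pair (V : Set (ValuationSubring F)) (a : ValuationSubring F → F)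
    (S : Finset (Ideal (interRing V))) {m : ℕ} {u g₀ : F} (hg₀ : g₀ ≠ 0)
    (hu : ∀ v ∈ V, v.valuation (u * a v ^ m) = 1)
    (hmove : ∀ P ∈ S, ∀ v ∈ V, CentreLE V v P → v.valuation (g₀ / a v) = 1) :
    (∀ P ∈ S, ∀ v ∈ V, CentreLE V v P → v.valuation (u * g₀ ^ m) = 1) ∧
      ∀ v ∈ V, v.valuation (u * g₀ ^ m * (a v / g₀) ^ m) = 1 := by
  constructor
  · intro P hP v hv hc
    have h1 := hu v hv
    have h2 := hmove P hP v hv hc
    have hav : a v ≠ 0 := by
      rintro h0
      rw [h0, div_zero, map_zero] at h2
      exact zero_ne_one h2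
    have : u * g₀ ^ m = u * a v ^ m * (g₀ / a v) ^ m := by
      rw [div_pow, mul_assoc, mul_div_cancel₀ _ (pow_ne_zero m hav)]
    rw [this, map_mul, map_pow, h1, h2, one_pow, one_mul]
  · intro v hv
    have : u * g₀ ^ m * (a v / g₀) ^ m = u * a v ^ m := by
      rw [div_pow, mul_assoc, mul_div_cancel₀ _ (pow_ne_zero m hg₀)]
    rw [this]
    exact hu v hv

/-- the new module is the old one divided by `g₀` -/
theorem mem_divMod_div {V : Set (ValuationSubring F)} {a : ValuationSubring F → F} {g₀ : F}
    {f : F} : f ∈ divMod V (fun v => a v / g₀) ↔ f * g₀ ∈ divMod V a := by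
  simp only [mem_divMod]
  refine forall₂_congr fun v _ => ?_
  rw [div_div_eq_mul_div]

/-- **Localisation of `divMod` at `P` is cut out by the valuations through `P`.**  If `f`
satisfies the conditions of `divMod V a` at every `v ∈ V` through `P`, only finitely many `v ∈ V`
are bad for `f`, and every bad `v` has rank one (is archimedean), then `s • f ∈ divMod V a` for
some `s ∉ P`. -/
theorem exists_smul_mem_divMod (V : Set (ValuationSubring F)) (a : ValuationSubring F → F)
    (P : Ideal (interRing V)) [P.IsPrime] (f : F)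
    (hloc : ∀ v ∈ V, CentreLE V v P → f / a v ∈ v)
    (hfin : {v ∈ V | f / a v ∉ v}.Finite)
    (harch : ∀ v ∈ V, ∀ x : F, v.valuation x < 1 → ∀ y : F, y ≠ 0 →
      ∃ n : ℕ, v.valuation (x ^ n) ≤ v.valuation y) :
    ∃ s : interRing V, s ∉ P ∧ s • f ∈ divMod V a := by
  classical
  have h1P : (1 : interRing V) ∉ P :=
    fun h => (Ideal.IsPrime.ne_top ‹_›) ((Ideal.eq_top_iff_one P).mpr h)
  -- for each bad `v` an element `s_v ∉ P` with `s_v * (f / a v) ∈ v`
  have hbad : ∀ v ∈ hfin.toFinset, ∃ s : interRing V, s ∉ P ∧ (s : F) * (f / a v) ∈ v := by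
    intro v hv
    rw [Set.Finite.mem_toFinset] at hv
    obtain ⟨hvV, hvf⟩ := hv
    have hnc : ¬ CentreLE V v P := fun hc => hvf (hloc v hvV hc)
    unfold CentreLE at hnc
    push Not at hnc
    obtain ⟨x, hx1, hxP⟩ := hnc
    have hy0 : f / a v ≠ 0 := fun h0 => hvf (h0 ▸ v.zero_mem)
    obtain ⟨n, hn⟩ := harch v hvV (x : F) hx1 (f / a v)⁻¹ (inv_ne_zero hy0)
    refine ⟨x ^ n, fun h => hxP (Ideal.IsPrime.mem_of_pow_mem ‹_› n h), ?_⟩
    rw [← ValuationSubring.valuation_le_one_iff, map_mul]
    push_cast
    calc v.valuation ((x : F) ^ n) * v.valuation (f / a v)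
        ≤ v.valuation (f / a v)⁻¹ * v.valuation (f / a v) := mul_le_mul' hn le_rfl
      _ = 1 := by rw [map_inv₀, inv_mul_cancel₀ ((map_ne_zero _).mpr hy0)]
  choose! sv hsv using hbad
  refine ⟨∏ v ∈ hfin.toFinset, sv v, fun h => ?_, fun v hv => ?_⟩
  · obtain ⟨v, hv, hvP⟩ := Ideal.IsPrime.prod_mem_iff.mp h
    exact (hsv v hv).1 hvP
  · rw [Subring.smul_def, smul_eq_mul, mul_div_assoc]
    by_cases hgood : f / a v ∈ v
    · exact v.mul_mem _ _ (coe_mem_of_mem _ hv) hgood
    · have hvmem : v ∈ hfin.toFinset := by
        rw [Set.Finite.mem_toFinset]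
        exact ⟨hv, hgood⟩
      rw [← Finset.mul_prod_erase _ _ hvmem]
      push_cast
      rw [mul_comm (sv v : F), mul_assoc]
      exact v.mul_mem _ _ (prod_mem fun i _ => coe_mem_of_mem (sv i) hv) (hsv v hvmem).2

end Valuation

end Fermat.Agent.GL.MoveAbs
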