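/-
GATE-L / L6b (helper2): the semilocal step of MOVE, abstract form (Mathlib only).

`I ≤ M` a submodule over a commutative ring `B`, `S` a finite set of maximal ideals of `B`.
If `I` is locally cyclic at every `P ∈ S` (there is `g_P ∈ I` such that every `x ∈ I` satisfies
`s • x = b • g_P` with `s ∉ P`), then ONE element `g ∈ I` generates `I` locally at all `P ∈ S`
simultaneously (`exists_common_generator`; Chinese remainder theorem, no localisation API,
no Noetherian / torsion-free hypotheses).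

Consumer (MOVE, board 2542 (1) / 2589 L6): `B = B_R`, `I = I_R(D)` the divisorial module of a
horizontal divisor `D`, `S = ` the crossing points; the local generators come from REG
(`DvrQuot.exists_eq_span_singleton`, `RegTwo.ufd`).  Then `D + div g` has no component through a
point of `S`, and for every valuation subring `V ⊇ B` of the function field whose centre lies
in some `P ∈ S` (all vertical valuations `w_i`, all horizontal places reducing into `S`) one has
`I · V = g · V` (`exists_mul_eq_of_center_le`).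
-/
import Mathlib

set_option autoImplicit false

namespace Fermat.Agent.GL.Move

section LocSpan

variable {B M : Type*} [CommRing B] [AddCommGroup M] [Module B M]

/-- `locSpan P J g = {x | ∃ s ∉ P, ∃ b ∈ J, s • x = b • g}`: the elements of `M` lying in
`J · B_P · g` (for `J = ⊤`: in `B_P · g`). -/
def locSpan (P : Ideal B) [P.IsPrime] (J : Ideal B) (g : M) : Submodule B M where
  carrier := {x | ∃ s : B, s ∉ P ∧ ∃ b ∈ J, s • x = b • g}
  zero_mem' := ⟨1, fun h => (Ideal.IsPrime.ne_top ‹_›) ((Ideal.eq_top_iff_one P).2 h), 0,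
    J.zero_mem, by simp⟩
  add_mem' := by
    rintro x y ⟨s, hs, b, hb, h1⟩ ⟨t, ht, c, hc, h2⟩
    refine ⟨s * t, fun h => ?_, t * b + s * c,
      J.add_mem (J.mul_mem_left _ hb) (J.mul_mem_left _ hc), ?_⟩
    · rcases (Ideal.IsPrime.mem_or_mem ‹_› h) with h | h
      · exact hs h
      · exact ht h
    · rw [smul_add, mul_comm s t, mul_smul, h1, mul_comm t s, mul_smul, h2, add_smul, mul_smul,
        mul_smul]
  smul_mem' := by
    rintro c x ⟨s, hs, b, hb, h1⟩
    exact ⟨s, hs, c * b, J.mul_mem_left _ hb, by rw [smul_comm, h1, mul_smul]⟩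

theorem mem_locSpan {P : Ideal B} [P.IsPrime] {J : Ideal B} {g x : M} :
    x ∈ locSpan P J g ↔ ∃ s : B, s ∉ P ∧ ∃ b ∈ J, s • x = b • g := Iff.rfl

theorem self_mem_locSpan_top (P : Ideal B) [P.IsPrime] (g : M) : g ∈ locSpan P ⊤ g :=
  ⟨1, fun h => (Ideal.IsPrime.ne_top ‹_›) ((Ideal.eq_top_iff_one P).2 h), 1, Submodule.mem_top,
    rfl⟩

theorem locSpan_mono (P : Ideal B) [P.IsPrime] {J J' : Ideal B} (h : J ≤ J') (g : M) :
    locSpan P J g ≤ locSpan P J' g := by
  rintro x ⟨s, hs, b, hb, hx⟩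
  exact ⟨s, hs, b, h hb, hx⟩

/-- `a • x ∈ J B_P g` when `a ∈ J` and `x ∈ B_P g`. -/
theorem smul_mem_locSpan {P : Ideal B} [P.IsPrime] {J : Ideal B} {g x : M} {a : B} (ha : a ∈ J)
    (hx : x ∈ locSpan P ⊤ g) : a • x ∈ locSpan P J g := by
  obtain ⟨s, hs, b, -, h⟩ := hx
  exact ⟨s, hs, a * b, J.mul_mem_right _ ha, by rw [smul_comm, h, mul_smul]⟩

/-- transitivity: `x ∈ B_P g` and `g ∈ B_P g'` imply `x ∈ B_P g'`. -/
theorem locSpan_trans {P : Ideal B} [P.IsPrime] {g g' x : M} (hx : x ∈ locSpan P ⊤ g)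
    (hg : g ∈ locSpan P ⊤ g') : x ∈ locSpan P ⊤ g' := by
  obtain ⟨s, hs, b, -, h1⟩ := hx
  obtain ⟨t, ht, c, -, h2⟩ := hg
  refine ⟨t * s, fun h => ?_, b * c, Submodule.mem_top, ?_⟩
  · rcases (Ideal.IsPrime.mem_or_mem ‹_› h) with h | h
    · exact ht h
    · exact hs h
  · rw [mul_smul, h1, smul_comm, h2, mul_smul]

/-- Nakayama by hand: if `g' - g ∈ P B_P g` then `g ∈ B_P g'`. -/
theorem mem_locSpan_of_sub_mem {P : Ideal B} [P.IsPrime] {g g' : M}
    (h : g' - g ∈ locSpan P P g) : g ∈ locSpan P ⊤ g' := by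
  obtain ⟨s, hs, b, hb, h1⟩ := h
  refine ⟨s + b, fun h => hs ?_, s, Submodule.mem_top, ?_⟩
  · have : s = (s + b) - b := by ring
    rw [this]
    exact P.sub_mem h hb
  · rw [smul_sub, sub_eq_iff_eq_add] at h1
    rw [h1, add_smul, add_comm]

end LocSpan

section CRT

variable {B : Type*} [CommRing B]

/-- CRT elements for a finite set of maximal ideals: `e P ≡ 1 mod P`, `e P ∈ Q` for `Q ≠ P`. -/
theorem exists_crt_elements (S : Finset (Ideal B)) (hmax : ∀ P ∈ S, P.IsMaximal) :
    ∃ e : Ideal B → B, ∀ P ∈ S, e P - 1 ∈ P ∧ ∀ Q ∈ S, Q ≠ P → e P ∈ Q := by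
  classical
  have hI : Pairwise (Function.onFun IsCoprime (fun i : S => (i : Ideal B))) := by
    intro i j hij
    have := hmax i.1 i.2
    have := hmax j.1 j.2
    exact Ideal.isCoprime_of_isMaximal (fun h => hij (Subtype.ext h))
  have key : ∀ P : Ideal B, ∃ r : B, P ∈ S → (r - 1 ∈ P ∧ ∀ Q ∈ S, Q ≠ P → r ∈ Q) := by
    intro P
    obtain ⟨r, hr⟩ := Ideal.exists_forall_sub_mem_ideal hI
      (fun i : S => if (i : Ideal B) = P then (1 : B) else 0)
    refine ⟨r, fun hP => ⟨?_, fun Q hQ hQP => ?_⟩⟩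
    · have := hr ⟨P, hP⟩
      simpa using this
    · have := hr ⟨Q, hQ⟩
      simpa [hQP] using this
  choose e he using key
  exact ⟨e, fun P hP => he P hP⟩

end CRT

section Main

variable {B M : Type*} [CommRing B] [AddCommGroup M] [Module B M]

/-- **L6b**: a submodule which is locally cyclic at finitely many maximal ideals has ONE
element generating it locally at all of them simultaneously. -/
theorem exists_common_generator (I : Submodule B M) (S : Finset (Ideal B))
    (hmax : ∀ P ∈ S, P.IsMaximal)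
    (hloc : ∀ P ∈ S, ∃ g ∈ I, ∀ x ∈ I, ∃ s : B, s ∉ P ∧ ∃ b : B, s • x = b • g) :
    ∃ g ∈ I, ∀ P ∈ S, ∀ x ∈ I, ∃ s : B, s ∉ P ∧ ∃ b : B, s • x = b • g := by
  classical
  choose! gl hgl using hloc
  obtain ⟨e, he⟩ := exists_crt_elements S hmax
  refine ⟨∑ Q ∈ S, e Q • gl Q, I.sum_mem fun Q hQ => I.smul_mem _ (hgl Q hQ).1, ?_⟩
  intro P hP x hx
  have hPmax := hmax P hP
  have hPprime : P.IsPrime := hPmax.isPrime
  -- everything in `I` lies in `B_P (gl P)`
  have hI : ∀ y ∈ I, y ∈ locSpan P ⊤ (gl P) := by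
    intro y hy
    obtain ⟨s, hs, b, hb⟩ := (hgl P hP).2 y hy
    exact ⟨s, hs, b, Submodule.mem_top, hb⟩
  -- the difference `G - gl P` lies in `P B_P (gl P)`
  have hdiff : (∑ Q ∈ S, e Q • gl Q) - gl P ∈ locSpan P P (gl P) := by
    have hsplit : (∑ Q ∈ S, e Q • gl Q) - gl P =
        (e P - 1) • gl P + ∑ Q ∈ S.erase P, e Q • gl Q := by
      rw [← Finset.add_sum_erase S _ hP, sub_smul, one_smul]
      abel
    rw [hsplit]
    refine Submodule.add_mem _ ?_ (Submodule.sum_mem _ fun Q hQ => ?_)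
    · exact smul_mem_locSpan (he P hP).1 (self_mem_locSpan_top P (gl P))
    · have hQS : Q ∈ S := Finset.mem_of_mem_erase hQ
      have hQP : Q ≠ P := Finset.ne_of_mem_erase hQ
      exact smul_mem_locSpan ((he Q hQS).2 P hP hQP.symm) (hI _ (hgl Q hQS).1)
  have hx' := locSpan_trans (hI x hx) (mem_locSpan_of_sub_mem hdiff)
  obtain ⟨s, hs, b, -, h⟩ := hx'
  exact ⟨s, hs, b, h⟩

end Main

section Field

variable {B F : Type*} [CommRing B] [Field F] [Algebra B F]

/-- **valuation form of MOVE**: if `g` generates `I` locally at `P`, then `I · V = g · V` for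
every valuation subring `V` of `F` containing the image of `B` whose centre on `B` lies in `P`. -/
theorem exists_mul_eq_of_center_le {I : Submodule B F} {P : Ideal B} {g : F}
    (hg : ∀ x ∈ I, ∃ s : B, s ∉ P ∧ ∃ b : B, s • x = b • g)
    (V : ValuationSubring F) (hBV : ∀ b : B, algebraMap B F b ∈ V)
    (hcentre : ∀ b : B, algebraMap B F b ∈ V.nonunits → b ∈ P) {x : F} (hx : x ∈ I) :
    ∃ c ∈ V, x = c * g := by
  obtain ⟨s, hs, b, h⟩ := hg x hx
  have hsne : algebraMap B F s ≠ 0 := by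
    intro h0
    apply hs
    apply hcentre
    rw [h0, ValuationSubring.mem_nonunits_iff, map_zero]
    exact zero_lt_one
  have hsunit : (algebraMap B F s)⁻¹ ∈ V := by
    by_contra hinv
    apply hs
    apply hcentre
    rw [ValuationSubring.mem_nonunits_iff_exists_mem_maximalIdeal]
    refine ⟨hBV s, ?_⟩
    rw [IsLocalRing.mem_maximalIdeal, mem_nonunits_iff]
    intro hu
    apply hinv
    obtain ⟨⟨u, v, huv, hvu⟩, hu'⟩ := hu
    have hu'' : (u : F) = algebraMap B F s := congrArg Subtype.val hu'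
    have : (algebraMap B F s)⁻¹ = (v : F) := by
      rw [← hu'']
      have h1 : (u : F) * (v : F) = 1 := congrArg Subtype.val huv
      exact (eq_inv_of_mul_eq_one_right h1).symm
    rw [this]
    exact v.2
  refine ⟨(algebraMap B F s)⁻¹ * algebraMap B F b, V.mul_mem _ _ hsunit (hBV b), ?_⟩
  rw [Algebra.smul_def, Algebra.smul_def] at h
  rw [mul_assoc, ← h, ← mul_assoc, inv_mul_cancel₀ hsne, one_mul]

/-- valuation inequality form: `v(x) ≤ v(g)` (multiplicative convention of Mathlib, i.e.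
`ord_V x ≥ ord_V g`) for all `x ∈ I`; with `g ∈ I` this says `v(g)` is the maximum on `I`. -/
theorem valuation_le_of_center_le {I : Submodule B F} {P : Ideal B} {g : F}
    (hg : ∀ x ∈ I, ∃ s : B, s ∉ P ∧ ∃ b : B, s • x = b • g)
    (V : ValuationSubring F) (hBV : ∀ b : B, algebraMap B F b ∈ V)
    (hcentre : ∀ b : B, algebraMap B F b ∈ V.nonunits → b ∈ P) {x : F} (hx : x ∈ I) :
    V.valuation x ≤ V.valuation g := by
  obtain ⟨c, hc, rfl⟩ := exists_mul_eq_of_center_le hg V hBV hcentre hx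
  rw [map_mul]
  calc V.valuation c * V.valuation g ≤ 1 * V.valuation g :=
        mul_le_mul_left ((V.valuation_le_one_iff c).2 hc) _
    _ = V.valuation g := one_mul _

end Field

end Fermat.Agent.GL.Move
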